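/-
S44 / cell [C] OLD-0 (helper1), part 1: FROM A MOD-`p` EIGEN-CHARACTER OF `H = gh_H M` TO A NORMALISED
EIGENFORM OF LEVEL `M`.

`s44c_lift` : `0 ≠ v : gh_H M →+ ZMod p` with `v ∘ T_ℓ = a_ℓ • v` for the good primes `ℓ ∈ G`
(`ℓ ∤ M`) gives a normalised eigenform `g ∈ S₂(Γ₀(M))` and a maximal ideal `𝔪' ∋ p` of `ℤ̄` with
`a_ℓ(g) ≡ a_ℓ mod 𝔪'` for those primes.

Route (all inputs on main): integer lift (`lrtop_ha_red_surj`), helper15's Deligne–Serre lifting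
`lrlf_main` on the lattice `Hom(H, ℤ) ⊆ Hom(H, ℂ)`, the Eichler–Shimura pair
(`t2f_exists_pair`, `t2f_compat_TH`, `t2f_pair_injective`), `lreig_main_char`.
Prefix `s44c_`.
-/
import Mathlib
import Fermat.Agent.JT3.T2.Faithful
import Fermat.Agent.LR.Rib.Lift
import Fermat.Agent.LR.EIG.Main
import Fermat.Agent.LR.Top.HomAlg
import Fermat.Agent.LR.MTX.Homology

set_option autoImplicit false
set_option linter.unusedSectionVars false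
set_option linter.style.haveILetI false

noncomputable section

open CongruenceSubgroup CuspForm ModularFormClass ModularCurve ModularCurve.Period
open Fermat.Agent.JT3 Fermat.Agent.LR

namespace Fermat.Agent.S44

/-- **from a mod-`p` eigen-character of `H` to a normalised eigenform** -/
theorem s44c_lift {p M : ℕ} [NeZero M] (hp : p.Prime) (G : Set ℕ) (a : ℕ → ℤ)
    (v : gh_H M →+ ZMod p) (hv : v ≠ 0)
    (hveig : ∀ ℓ : ℕ, ℓ.Prime → ¬ ℓ ∣ M → ℓ ∈ G →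
      v.comp (t2f_TH M ℓ).toAddMonoidHom = ((a ℓ : ℤ) : ZMod p) • v) :
    ∃ (g : CuspForm (Gamma0 M) 2) (𝔪' : Ideal (integralClosure ℤ ℂ)),
      g.IsNormalizedEigenform ∧ 𝔪'.IsMaximal ∧ ((p : ℕ) : integralClosure ℤ ℂ) ∈ 𝔪' ∧
      ∀ ℓ : ℕ, ℓ.Prime → ¬ ℓ ∣ M → ℓ ∈ G →
        ∃ b : integralClosure ℤ ℂ, (b : ℂ) = qCoeff g ℓ ∧
          b - ((a ℓ : ℤ) : integralClosure ℤ ℂ) ∈ 𝔪' := by
  classical
  haveI : Fact p.Prime := ⟨hp⟩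
  let I : Type := {ℓ : ℕ // ℓ.Prime ∧ ¬ ℓ ∣ M ∧ ℓ ∈ G}
  let aI : I → ℤ := fun i => a i.1
  haveI : Module.Finite ℤ (gh_H M →+ ℤ) := lrtop_ha_finite_int
  haveI : FiniteDimensional ℂ (gh_H M →+ ℂ) := lrtop_ha_finiteDimensional ℂ
  let tB : I → Module.End ℤ (gh_H M →+ ℤ) := fun i => lrtop_ha_preLin M ℤ ℤ i.1
  let tW : I → Module.End ℂ (gh_H M →+ ℂ) := fun i => lrtop_ha_preLin M ℂ ℂ i.1
  obtain ⟨x, hx⟩ := lrtop_ha_red_surj (M := M) p v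
  have hpV : ∀ w : gh_H M →+ ZMod p, (p : ℤ) • w = 0 := by
    intro w
    rw [← Int.cast_smul_eq_zsmul (ZMod p), Int.cast_natCast, ZMod.natCast_self, zero_smul]
  obtain ⟨Θ, b, 𝔪', -, hΘ0, hΘb, hmax, hpm, hb⟩ := lrlf_main (I := I) hp aI
    (B := gh_H M →+ ℤ) tB (W := gh_H M →+ ℂ) tW
    (fun l l' => lrtop_ha_preLin_commute l.1 l'.1)
    (lrtop_ha_cplx M) lrtop_ha_cplx_injective (fun l y => rfl) x
    (fun y => lrtop_ha_not_dvd (p : ℤ) hpV (lrtop_ha_red M p) x (by rw [hx]; exact hv) y)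
    (by
      intro l
      apply lrtop_ha_red_ker p
      show lrtop_ha_red M p (lrtop_ha_pre M ℤ l.1 x - aI l • x) = 0
      rw [map_sub, map_zsmul, lrtop_ha_red_pre, hx, lrtop_ha_pre_eq_comp,
        hveig l.1 l.2.1 l.2.2.1 l.2.2.2, Int.cast_smul_eq_zsmul, sub_self])
  -- Eichler–Shimura
  obtain ⟨g₁, g₂, h⟩ := t2f_exists_pair Θ
  have heig' : ∀ l : I,
      CuspForm.heckeTLin 2 l.2.1 l.2.2.1 g₁ = ((b l : integralClosure ℤ ℂ) : ℂ) • g₁ ∧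
        CuspForm.heckeTLin 2 l.2.1 l.2.2.1 g₂ = ((b l : integralClosure ℤ ℂ) : ℂ) • g₂ := by
    intro l
    have h1 := t2f_compat_TH l.2.1 l.2.2.1 Θ g₁ g₂ h
    have h3 : Θ.comp (t2f_TH M l.1).toAddMonoidHom = ((b l : integralClosure ℤ ℂ) : ℂ) • Θ :=
      hΘb l
    rw [h3] at h1
    have h2 : ((((b l : integralClosure ℤ ℂ) : ℂ)) • Θ).comp (gh_mk M) =
        periodHomPair M (((b l : integralClosure ℤ ℂ) : ℂ) • g₁,
          ((b l : integralClosure ℤ ℂ) : ℂ) • g₂) := by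
      rw [← Prod.smul_mk, map_smul, ← h]
      rfl
    exact t2f_pair_injective (h1.symm.trans h2)
  obtain ⟨g₀, hg₀, hg₀eig⟩ : ∃ g₀ : CuspForm (Gamma0 M) 2, g₀ ≠ 0 ∧ ∀ l : I,
      CuspForm.heckeTLin 2 l.2.1 l.2.2.1 g₀ = ((b l : integralClosure ℤ ℂ) : ℂ) • g₀ := by
    by_cases hg₁ : g₁ = 0
    · have hg₂ : g₂ ≠ 0 := by
        intro hg₂
        apply hΘ0
        apply lrh_comp_mk_injective
        rw [h, hg₁, hg₂, ← Prod.zero_eq_mk, map_zero]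
        rfl
      exact ⟨g₂, hg₂, fun l => (heig' l).2⟩
    · exact ⟨g₁, hg₁, fun l => (heig' l).1⟩
  -- the normalised eigenform
  let S : Set ℕ := {ℓ | ℓ ∉ G}
  let θ : ℕ → ℂ := fun ℓ =>
    if h : ℓ.Prime ∧ ¬ ℓ ∣ M ∧ ℓ ∈ G then ((b ⟨ℓ, h⟩ : integralClosure ℤ ℂ) : ℂ) else 0
  have hθ : ∀ i : I, θ i.1 = ((b i : integralClosure ℤ ℂ) : ℂ) := fun i => dif_pos i.2
  have hne : lreig_charSub (⊤ : Submodule ℂ (CuspForm (Gamma0 M) 2)) S θ ≠ ⊥ := by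
    intro hbot
    apply hg₀
    have hmem : g₀ ∈ lreig_charSub (⊤ : Submodule ℂ (CuspForm (Gamma0 M) 2)) S θ := by
      rw [lreig_mem_charSub]
      refine ⟨Submodule.mem_top, fun ℓ hℓ hℓM hℓS => ?_⟩
      have hG : ℓ ∈ G := not_not.mp hℓS
      rw [hθ ⟨ℓ, hℓ, hℓM, hG⟩]
      exact hg₀eig ⟨ℓ, hℓ, hℓM, hG⟩
    rw [hbot] at hmem
    exact (Submodule.mem_bot ℂ).mp hmem
  obtain ⟨g, -, hg, hgcoef, -, -⟩ := lreig_main_char (⊤ : Submodule ℂ (CuspForm (Gamma0 M) 2)) S θ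
    hne (fun _ _ _ _ _ => Submodule.mem_top) (fun _ _ _ _ _ => Submodule.mem_top)
  refine ⟨g, 𝔪', hg, hmax, hpm, fun ℓ hℓ hℓM hG => ?_⟩
  refine ⟨b ⟨ℓ, hℓ, hℓM, hG⟩, ?_, hb ⟨ℓ, hℓ, hℓM, hG⟩⟩
  rw [hgcoef ℓ hℓ hℓM (fun h => h hG)]
  exact (hθ ⟨ℓ, hℓ, hℓM, hG⟩).symm

end Fermat.Agent.S44
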