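/-
S44 / cell [C] OLD-0 (helper1), (CHAR-N): THE NAKAYAMA GLUE FOR [C2]/OLD-k.

**`s44c_level_of_dens`** : `red : J₀(M)(ℚ̄) →+ V` additive, compatible (on ALL points) with operators
`t ℓ` on `V` for the good primes; (DENS-p) [helper3, #3897]: a pair `(Qe, Qb)` of endomorphisms of
`J₀(M)`, `V` with `Qe` Galois-equivariant, `red ∘ Qe = Qb ∘ red`, `Qe = 0` on the `p`-power torsion,
has `Qb (red y) = 0` whenever `p • red y = 0`; `δ = red y ≠ 0`, `p • δ = 0`, `t ℓ δ = a_ℓ(W) • δ`.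
Then `P.ModularRepOfLevel M`.

Proof: the Nakayama alternative `s44c_nak` on `H = gh_H M`.  Either a nonzero eigen-functional
`v : H →+ ZMod p` (then `s44c_lift`), or a noncommutative Hecke polynomial `r` with `r(T_H) = 0` and
`r(a) ≡ 1 mod p`; then `Qe := r(T)`, `Qb := r(t)` satisfy (a) [`egh_comm`], (b), (c)
[`s44c_free_kills_tors`], and `Qb δ = r(a) δ = δ`, so (DENS-p) gives `δ = 0`: contradiction.
Prefix `s44c_`.
-/
import Mathlib
import Fermat.Agent.S44.Old0.Char3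
import Fermat.Agent.S44.Old0.Lift
import Fermat.Agent.S44.Seams
import Fermat.Agent.JT3.ES.GaloisHecke

set_option autoImplicit false
set_option linter.unusedSectionVars false
set_option linter.style.haveILetI false
set_option synthInstance.maxHeartbeats 400000
set_option maxHeartbeats 1000000

noncomputable section

open CongruenceSubgroup ModularCurve
open WeierstrassCurve
open Fermat.Agent.JT3

namespace Fermat.Agent.S44

/-- **(CHAR-N)**: the Nakayama glue -/
theorem s44c_level_of_dens (P : FreyPackage) (M : ℕ) [NeZero M] (W : WeierstrassCurve ℤ)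
    (hW : W.IsIntegralModelOf P.freyCurve) {V : Type*} [AddCommGroup V]
    (red : JZero M →+ V) (t : Nat.Primes → V →+ V)
    (hred : ∀ ℓ : Nat.Primes, W.IsGoodPrimeFor ℓ → ¬ (ℓ : ℕ) ∣ M → (ℓ : ℕ) ≠ P.p →
      ∀ z : JZero M, red (heckeOperatorBar M ℓ z) = t ℓ (red z))
    (hdens : ∀ (Qe : JZero M →+ JZero M) (Qb : V →+ V),
      (∀ (σ : s44_G) (x : JZero M), Qe (σ • x) = σ • Qe x) →
      (∀ x : JZero M, red (Qe x) = Qb (red x)) →
      (∀ x : JZero M, (∃ n : ℕ, P.p ^ n • x = 0) → Qe x = 0) →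
      ∀ y : JZero M, P.p • red y = 0 → Qb (red y) = 0)
    (δ : V) (hδ0 : δ ≠ 0) (hpδ : P.p • δ = 0)
    (hδ : ∀ ℓ : Nat.Primes, W.IsGoodPrimeFor ℓ → ¬ (ℓ : ℕ) ∣ M → (ℓ : ℕ) ≠ P.p →
      t ℓ δ = (W.apOfModel ℓ) • δ)
    (y : JZero M) (hy : red y = δ) :
    P.ModularRepOfLevel M := by
  classical
  haveI : Fact P.p.Prime := ⟨P.pp⟩
  set p := P.p with hp
  -- the index set of good primes
  let Λ : Type := {ℓ : Nat.Primes // W.IsGoodPrimeFor ℓ ∧ ¬ (ℓ : ℕ) ∣ M ∧ (ℓ : ℕ) ≠ p}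
  let ℓΛ : Λ → Nat.Primes := fun i => i.1
  have hℓM : ∀ i : Λ, ¬ ((ℓΛ i : ℕ) ∣ M) := fun i => i.2.2.1
  let a : Λ → ℤ := fun i => W.apOfModel (i.1 : ℕ)
  haveI : Module.Finite ℤ (gh_H M) :=
    Module.Finite.equiv (ghf_basisEquiv M).symm.toIntLinearEquiv
  rcases s44c_nak (fun i : Λ => t2f_TH M (ℓΛ i : ℕ)) (s44c_TH_commute M ℓΛ hℓM) a P.pp with
    ⟨v, hv0, hv⟩ | ⟨r, hrH, c, hrc⟩
  · -- an eigen-functional: Deligne–Serre
    obtain ⟨g, 𝔪', hg, hmax, hpm, hcong⟩ := s44c_lift P.pp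
      {ℓ : ℕ | W.IsGoodPrimeFor ℓ ∧ ℓ ≠ p} (fun ℓ => W.apOfModel ℓ) v hv0
      (fun ℓ hℓ hℓM' hG => hv ⟨⟨ℓ, hℓ⟩, hG.1, hℓM', hG.2⟩)
    exact ⟨g, W, 𝔪', hg, hW, hmax, hpm, fun ℓ hℓ hgood hℓM' hℓp => hcong ℓ hℓ hℓM' ⟨hgood, hℓp⟩⟩
  · -- Nakayama: contradiction with (DENS-p)
    exfalso
    let evJ : FreeAlgebra ℤ Λ →ₐ[ℤ] Module.End ℤ (JZero M) :=
      FreeAlgebra.lift ℤ (fun i => heckeOperatorBar M (ℓΛ i))
    let evV : FreeAlgebra ℤ Λ →ₐ[ℤ] Module.End ℤ V :=
      FreeAlgebra.lift ℤ (fun i => (t (ℓΛ i)).toIntLinearMap)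
    -- (a) Galois equivariance
    have ha : ∀ (x : FreeAlgebra ℤ Λ) (σ : s44_G) (z : JZero M), evJ x (σ • z) = σ • evJ x z := by
      intro x
      induction x using FreeAlgebra.induction with
      | grade0 k =>
        intro σ z
        rw [AlgHom.commutes, Module.algebraMap_end_apply, Module.algebraMap_end_apply]
        exact (map_zsmul (DistribSMul.toAddMonoidHom (JZero M) σ) k z).symm
      | grade1 i =>
        intro σ z
        show FreeAlgebra.lift ℤ (fun i => heckeOperatorBar M (ℓΛ i)) (FreeAlgebra.ι ℤ i) (σ • z) =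
          σ • FreeAlgebra.lift ℤ (fun i => heckeOperatorBar M (ℓΛ i)) (FreeAlgebra.ι ℤ i) z
        rw [FreeAlgebra.lift_ι_apply]
        exact (egh_comm M (ℓΛ i) σ z).symm
      | mul x₁ x₂ h₁ h₂ =>
        intro σ z
        rw [map_mul, Module.End.mul_apply, Module.End.mul_apply, h₂, h₁]
      | add x₁ x₂ h₁ h₂ =>
        intro σ z
        rw [map_add, LinearMap.add_apply, LinearMap.add_apply, h₁, h₂, smul_add]
    -- (b) compatibility with `red`
    have hb : ∀ (x : FreeAlgebra ℤ Λ) (z : JZero M), red (evJ x z) = evV x (red z) := by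
      intro x
      induction x using FreeAlgebra.induction with
      | grade0 k =>
        intro z
        rw [AlgHom.commutes, AlgHom.commutes, Module.algebraMap_end_apply,
          Module.algebraMap_end_apply, map_zsmul]
      | grade1 i =>
        intro z
        show red (FreeAlgebra.lift ℤ (fun i => heckeOperatorBar M (ℓΛ i)) (FreeAlgebra.ι ℤ i) z) =
          FreeAlgebra.lift ℤ (fun i => (t (ℓΛ i)).toIntLinearMap) (FreeAlgebra.ι ℤ i) (red z)
        rw [FreeAlgebra.lift_ι_apply, FreeAlgebra.lift_ι_apply]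
        exact hred i.1 i.2.1 i.2.2.1 i.2.2.2 z
      | mul x₁ x₂ h₁ h₂ =>
        intro z
        rw [map_mul, map_mul, Module.End.mul_apply, Module.End.mul_apply, h₁, h₂]
      | add x₁ x₂ h₁ h₂ =>
        intro z
        rw [map_add, map_add, LinearMap.add_apply, LinearMap.add_apply, map_add, h₁, h₂]
    -- eigenvalue of `evV x` on `δ`
    have hev : ∀ x : FreeAlgebra ℤ Λ, evV x δ = (FreeAlgebra.lift ℤ a x) • δ := by
      intro x
      induction x using FreeAlgebra.induction with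
      | grade0 k =>
        rw [AlgHom.commutes, AlgHom.commutes, Module.algebraMap_end_apply]
        rfl
      | grade1 i =>
        show FreeAlgebra.lift ℤ (fun i => (t (ℓΛ i)).toIntLinearMap) (FreeAlgebra.ι ℤ i) δ =
          (FreeAlgebra.lift ℤ a (FreeAlgebra.ι ℤ i)) • δ
        rw [FreeAlgebra.lift_ι_apply, FreeAlgebra.lift_ι_apply]
        exact hδ i.1 i.2.1 i.2.2.1 i.2.2.2
      | mul x₁ x₂ h₁ h₂ =>
        rw [map_mul, map_mul, Module.End.mul_apply, h₂, map_zsmul, h₁, smul_smul, mul_comm]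
      | add x₁ x₂ h₁ h₂ =>
        rw [map_add, map_add, LinearMap.add_apply, h₁, h₂, add_smul]
    -- (c) `evJ r` kills the `p`-power torsion
    have hc : ∀ x : JZero M, (∃ n : ℕ, p ^ n • x = 0) → evJ r x = 0 := by
      rintro x ⟨n, hn⟩
      exact s44c_free_kills_tors M p ℓΛ hℓM r hrH x n hn
    have h0 := hdens (evJ r).toAddMonoidHom (evV r).toAddMonoidHom (fun σ x => ha r σ x)
      (fun x => hb r x) hc y (by rw [hy]; exact hpδ)
    rw [hy] at h0
    have h1 : evV r δ = 0 := h0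
    rw [hev r, hrc, add_smul, one_smul, mul_comm, mul_smul, natCast_zsmul, hpδ, smul_zero,
      add_zero] at h1
    exact hδ0 h1

end Fermat.Agent.S44
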