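/-
S44 / cell [C] OLD-0 (helper1), part 2: THE MOD-`p` CHARACTER OF A POINT OF `J₀(M)[p]`.

`s44c_char` : a nonzero `z ∈ J₀(M)(ℚ̄)` with `p • z = 0` has a nonzero character
`v : gh_H M →+ ZMod p` such that `T_ℓ z = a • z` (`ℓ ∤ M` prime, `a : ℤ`) implies
`v ∘ T_H ℓ = a • v`.

Inputs (JT3, all on main): the character maps `tj_chi M p 1` (injective: `tj_chi_inj`; trivial on
parabolic/elliptic elements: `tj_chi_rel`), their Hecke equivariance `tjp_hH`, the discrete
logarithm `tl_Roots.log` for the complex roots of unity `tl_rootsComplex p`.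
Prefix `s44c_`.
-/
import Mathlib
import Fermat.Agent.JT3.Tate.Package

set_option autoImplicit false
set_option linter.unusedSectionVars false
set_option linter.style.haveILetI false
set_option synthInstance.maxHeartbeats 400000
set_option maxHeartbeats 1000000

noncomputable section

open CongruenceSubgroup ModularCurve
open Fermat.Agent.JT3

namespace Fermat.Agent.S44

/-- the discrete logarithm of a finite product of `p ^ n`-torsion elements -/
theorem s44c_log_prod {Mo : Type*} [CommGroup Mo] {p : ℕ} [Fact p.Prime] (Z : tl_Roots Mo p)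
    (n : ℕ) {ι : Type*} (s : Finset ι) (f : ι → Mo) (hf : ∀ i ∈ s, f i ^ (p ^ n) = 1) :
    Z.log n (∏ i ∈ s, f i) = ∑ i ∈ s, Z.log n (f i) := by
  classical
  induction s using Finset.induction_on with
  | empty => rw [Finset.prod_empty, Finset.sum_empty, Z.log_one]
  | insert i s hi ih =>
    rw [Finset.prod_insert hi, Finset.sum_insert hi,
      Z.log_mul (hf i (Finset.mem_insert_self i s))
        (by
          rw [← Finset.prod_pow]
          exact Finset.prod_eq_one fun j hj => hf j (Finset.mem_insert_of_mem hj)),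
      ih fun j hj => hf j (Finset.mem_insert_of_mem hj)]

variable (M p : ℕ) [NeZero M] [hp : Fact p.Prime]

/-- the additive character `Γ₀(M) → ZMod (p ^ 1)` of a `p`-torsion point -/
def s44c_phi (z : JZero M) (hz : p ^ 1 • z = 0) : Additive (Gamma0 M) →+ ZMod (p ^ 1) where
  toFun γ := (tl_rootsComplex p).log 1 (tj_chi M p 1 z (Additive.toMul γ))
  map_zero' := by
    show (tl_rootsComplex p).log 1 (tj_chi M p 1 z 1) = 0
    rw [map_one, tl_Roots.log_one]
  map_add' γ γ' := by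
    show (tl_rootsComplex p).log 1 (tj_chi M p 1 z (Additive.toMul γ * Additive.toMul γ')) = _
    rw [map_mul, tl_Roots.log_mul]
    · exact (tj_charSystem (tjp_surj M p)).apply_pow_eq_one 1 hz _
    · exact (tj_charSystem (tjp_surj M p)).apply_pow_eq_one 1 hz _

theorem s44c_phi_apply (z : JZero M) (hz : p ^ 1 • z = 0) (γ : Gamma0 M) :
    s44c_phi M p z hz (Additive.ofMul γ) = (tl_rootsComplex p).log 1 (tj_chi M p 1 z γ) := rfl

theorem s44c_phi_parEll (z : JZero M) (hz : p ^ 1 • z = 0) (γ : Gamma0 M)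
    (hγ : gh_IsParEll M γ) : s44c_phi M p z hz (Additive.ofMul γ) = 0 := by
  rw [s44c_phi_apply, tj_chi_rel M p 1 z hz γ hγ, tl_Roots.log_one]

/-- the character `H → ZMod (p ^ 1)` of a `p`-torsion point -/
def s44c_v1 (z : JZero M) (hz : p ^ 1 • z = 0) : gh_H M →+ ZMod (p ^ 1) :=
  gh_lift (s44c_phi M p z hz) (s44c_phi_parEll M p z hz)

theorem s44c_v1_mk (z : JZero M) (hz : p ^ 1 • z = 0) (γ : Gamma0 M) :
    s44c_v1 M p z hz (gh_mk M (Additive.ofMul γ)) =
      (tl_rootsComplex p).log 1 (tj_chi M p 1 z γ) := by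
  rw [s44c_v1, gh_lift_mk, s44c_phi_apply]

theorem s44c_v1_ne_zero (z : JZero M) (hz : p ^ 1 • z = 0) (hz0 : z ≠ 0) :
    s44c_v1 M p z hz ≠ 0 := by
  intro h
  apply hz0
  apply tj_chi_inj M p 1 z hz
  ext γ
  have h1 := s44c_v1_mk M p z hz γ
  rw [h, AddMonoidHom.zero_apply] at h1
  have h2 : tj_chi M p 1 z γ = 1 := (tl_rootsComplex p).eq_one_of_log_eq_zero
    ((tj_charSystem (tjp_surj M p)).apply_pow_eq_one 1 hz γ) h1.symm
  rw [h2]
  rfl

/-- Hecke equivariance: `T_ℓ z = k • z` implies `v₁ ∘ T_H = k • v₁` -/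
theorem s44c_v1_hecke (z : JZero M) (hz : p ^ 1 • z = 0) {ℓ : ℕ} [hℓ : Fact ℓ.Prime]
    (hℓM : ¬ ℓ ∣ M) (k : ℕ) (hk : heckeOperatorBar M ⟨ℓ, hℓ.out⟩ z = k • z) :
    (s44c_v1 M p z hz).comp (t2e_TH hℓM) = k • s44c_v1 M p z hz := by
  refine gh_hom_ext fun g => ?_
  obtain ⟨γ, rfl⟩ := Additive.ofMul.surjective g
  have htor : ∀ γ' : Gamma0 M, tj_chi M p 1 z γ' ^ (p ^ 1) = 1 := fun γ' =>
    (tj_charSystem (tjp_surj M p)).apply_pow_eq_one 1 hz γ'
  rw [AddMonoidHom.comp_apply, t2e_TH_mk, map_sum, AddMonoidHom.smul_apply, s44c_v1_mk]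
  simp_rw [s44c_v1_mk]
  rw [← s44c_log_prod (tl_rootsComplex p) 1 Finset.univ
    (fun x => tj_chi M p 1 z (t2c_coc hℓM x γ)) (fun x _ => htor _), ← t2c_T_apply,
    ← tjp_hH M p ℓ hℓM 1 z hz, hk]
  have h1 : tj_chi M p 1 (k • z) = tj_chi M p 1 z ^ k :=
    (tj_charSystem (tjp_surj M p)).map_nsmul 1 hz k
  rw [h1, MonoidHom.pow_apply, tl_Roots.log_pow _ (htor γ), nsmul_eq_mul]

/-- **the mod-`p` character of a point of `J₀(M)[p]`** -/
theorem s44c_char (z : JZero M) (hz0 : z ≠ 0) (hpz : p • z = 0) :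
    ∃ v : gh_H M →+ ZMod p, v ≠ 0 ∧
      ∀ (ℓ : ℕ) (hℓ : ℓ.Prime) (_ : ¬ ℓ ∣ M) (a : ℤ),
        heckeOperatorBar M ⟨ℓ, hℓ⟩ z = a • z →
          v.comp (t2f_TH M ℓ).toAddMonoidHom = ((a : ℤ) : ZMod p) • v := by
  have hz : p ^ 1 • z = 0 := by rw [pow_one]; exact hpz
  let e : ZMod (p ^ 1) ≃+* ZMod p := ZMod.ringEquivCongr (pow_one p)
  let v1 := s44c_v1 M p z hz
  refine ⟨e.toAddMonoidHom.comp v1, ?_, ?_⟩
  · intro h
    apply s44c_v1_ne_zero M p z hz hz0
    refine AddMonoidHom.ext fun x => e.injective ?_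
    have := DFunLike.congr_fun h x
    rw [AddMonoidHom.zero_apply, map_zero]
    exact this
  · intro ℓ hℓ hℓM a ha
    haveI : Fact ℓ.Prime := ⟨hℓ⟩
    -- a natural representative of `a`
    have hp0 : (0 : ℤ) < p := by exact_mod_cast hp.out.pos
    set k : ℕ := (a % p).toNat with hk
    have hkz : (k : ℤ) = a % p := Int.toNat_of_nonneg (Int.emod_nonneg a hp0.ne')
    have hak : a • z = k • z := by
      have h1 : a = (k : ℤ) + (p : ℤ) * (a / p) := by
        rw [hkz]
        exact (Int.emod_add_mul_ediv a p).symm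
      conv_lhs => rw [h1]
      rw [add_zsmul, mul_zsmul, natCast_zsmul, natCast_zsmul, smul_comm, hpz, smul_zero, add_zero]
    have hcast : ((a : ℤ) : ZMod p) = (k : ZMod p) := by
      have : ((k : ℤ) : ZMod p) = ((a % p : ℤ) : ZMod p) := by rw [hkz]
      rw [Int.cast_natCast] at this
      rw [this]
      exact (ZMod.intCast_mod a p).symm
    have h1 := s44c_v1_hecke M p z hz hℓM k (ha.trans hak)
    refine AddMonoidHom.ext fun x => ?_
    rw [AddMonoidHom.comp_apply, AddMonoidHom.comp_apply, AddMonoidHom.smul_apply,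
      AddMonoidHom.comp_apply]
    have h2 : (t2f_TH M ℓ).toAddMonoidHom x = t2e_TH hℓM x := t2f_TH_apply hℓ hℓM x
    rw [h2]
    have h3 := DFunLike.congr_fun h1 x
    rw [AddMonoidHom.comp_apply, AddMonoidHom.smul_apply] at h3
    show e (v1 (t2e_TH hℓM x)) = _
    rw [h3, hcast, nsmul_eq_mul, smul_eq_mul]
    show e ((k : ZMod (p ^ 1)) * v1 x) = (k : ZMod p) * e (v1 x)
    rw [map_mul, map_natCast]

end Fermat.Agent.S44
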