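/-
S44 / cell [C] OLD-0 (helper1), part 3: THE SEAM `s44_Old0_stmt`.

* `s44c_level_of_eigen` (level-agnostic core): a nonzero `z ∈ J₀(M)(ℚ̄)` with `p • z = 0` and
  `T_ℓ z = a_ℓ(W) • z` for the good primes `ℓ ∤ M`, `ℓ ≠ p` of an integral model `W` of the Frey
  curve gives `P.ModularRepOfLevel M` (`s44c_char` + `s44c_lift`);
* `s44c_level_of_map` : the same for the image of a copy `ι : E[p] → J₀(N)` under an additive map
  `φ : J₀(N) → J₀(M)` commuting with the good Hecke operators;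
* `s44c_old0` : `s44_Old0_stmt Fr` for every frame whose degeneracy maps `Fr.as`, `Fr.bs` commute
  with `T_ℓ` (`ℓ ∤ M p`).
Prefix `s44c_`.
-/
import Mathlib
import Fermat.Agent.S44.Old0.Char
import Fermat.Agent.S44.Old0.Lift
import Fermat.Agent.S44.Low.Seams

set_option autoImplicit false
set_option linter.unusedSectionVars false
set_option linter.style.haveILetI false

noncomputable section

open CongruenceSubgroup ModularCurve
open WeierstrassCurve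
open Fermat.Agent.JT3

namespace Fermat.Agent.S44

/-- **[OLD-0], level-agnostic core**: a nonzero Hecke-eigen point of `J₀(M)[p](ℚ̄)` with the
eigenvalues `a_ℓ(W)` of (an integral model of) the Frey curve gives residual modularity of
level `M`. -/
theorem s44c_level_of_eigen (P : FreyPackage) (M : ℕ) [NeZero M] (W : WeierstrassCurve ℤ)
    (hW : W.IsIntegralModelOf P.freyCurve) (z : JZero M) (hz0 : z ≠ 0) (hpz : P.p • z = 0)
    (heig : ∀ ℓ : Nat.Primes, W.IsGoodPrimeFor ℓ → ¬ (ℓ : ℕ) ∣ M → (ℓ : ℕ) ≠ P.p →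
      heckeOperatorBar M ℓ z = (W.apOfModel ℓ) • z) :
    P.ModularRepOfLevel M := by
  haveI : Fact P.p.Prime := ⟨P.pp⟩
  obtain ⟨v, hv0, hv⟩ := s44c_char M P.p z hz0 hpz
  obtain ⟨g, 𝔪', hg, hmax, hpm, hcong⟩ := s44c_lift P.pp
    {ℓ : ℕ | W.IsGoodPrimeFor ℓ ∧ ℓ ≠ P.p} (fun ℓ => W.apOfModel ℓ) v hv0
    (fun ℓ hℓ hℓM hG => hv ℓ hℓ hℓM (W.apOfModel ℓ) (heig ⟨ℓ, hℓ⟩ hG.1 hℓM hG.2))
  exact ⟨g, W, 𝔪', hg, hW, hmax, hpm, fun ℓ hℓ hgood hℓM hℓp => hcong ℓ hℓ hℓM ⟨hgood, hℓp⟩⟩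

/-- the same for the image of a copy of `E[p]` under a Hecke-equivariant map of Jacobians -/
theorem s44c_level_of_map (P : FreyPackage) (N M : ℕ) [NeZero N] [NeZero M]
    (W : WeierstrassCurve ℤ) (ι : s44_Tors P →+ JZero N) (hι : s44_IsCopy P N W ι)
    (hNM : ∀ ℓ : ℕ, ℓ.Prime → ¬ ℓ ∣ M → ℓ ≠ P.p → ¬ ℓ ∣ N)
    (φ : JZero N →+ JZero M)
    (hφ : ∀ ℓ : Nat.Primes, ¬ (ℓ : ℕ) ∣ N → ∀ z : JZero N,
      φ (heckeOperatorBar N ℓ z) = heckeOperatorBar M ℓ (φ z))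
    (y : s44_Tors P) (hy : φ (ι y) ≠ 0) : P.ModularRepOfLevel M := by
  refine s44c_level_of_eigen P M W hι.model (φ (ι y)) hy ?_ ?_
  · rw [← map_nsmul, ← map_nsmul, s44_tors_smul, map_zero, map_zero]
  · intro ℓ hgood hℓM hℓp
    have hℓN : ¬ (ℓ : ℕ) ∣ N := hNM ℓ ℓ.2 hℓM hℓp
    rw [← hφ ℓ hℓN, hι.eigen ℓ hgood hℓN hℓp y, map_zsmul]

/-- **[OLD0]** for every frame whose degeneracy maps commute with the good Hecke operators -/
theorem s44c_old0 {P : FreyPackage} {M : ℕ} [NeZero M] [NeZero (M * P.p)] (Fr : s44_Frame P M)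
    (has : ∀ ℓ : Nat.Primes, ¬ (ℓ : ℕ) ∣ M * P.p → ∀ z : JZero (M * P.p),
      Fr.as (heckeOperatorBar (M * P.p) ℓ z) = heckeOperatorBar M ℓ (Fr.as z))
    (hbs : ∀ ℓ : Nat.Primes, ¬ (ℓ : ℕ) ∣ M * P.p → ∀ z : JZero (M * P.p),
      Fr.bs (heckeOperatorBar (M * P.p) ℓ z) = heckeOperatorBar M ℓ (Fr.bs z)) :
    s44_Old0_stmt Fr := by
  intro W ι hι hy
  have hNM : ∀ ℓ : ℕ, ℓ.Prime → ¬ ℓ ∣ M → ℓ ≠ P.p → ¬ ℓ ∣ M * P.p := by
    intro ℓ hℓ hℓM hℓp h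
    rcases (Nat.Prime.dvd_mul hℓ).mp h with h1 | h1
    · exact hℓM h1
    · exact hℓp ((Nat.prime_dvd_prime_iff_eq hℓ P.pp).mp h1)
  obtain ⟨y, hy | hy⟩ := hy
  · exact s44c_level_of_map P (M * P.p) M W ι hι hNM Fr.as has y hy
  · exact s44c_level_of_map P (M * P.p) M W ι hι hNM Fr.bs hbs y hy

end Fermat.Agent.S44
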