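/-
S44 / cell [C] OLD-0 (helper1), part 4: THE FIELD `old0` OF `s44_FrameOK` FOR THE CONCRETE FRAME.

* `s44c_level_of_map_tors` : `s44c_level_of_map` with the Hecke-equivariance of `φ` required on the
  `p`-torsion only (the form in which S35/PMaps/Equiv.lean has it);
* **`s44c_old0_frame`** : `s44_Old0_stmt (s44_frame P M hpM)` (`as = s35p_P1J M p`,
  `bs = s35p_P2J M p`, `s35p_P1J_hecke`, `s35p_P2J_hecke`).
Prefix `s44c_`.
-/
import Mathlib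
import Fermat.Agent.S44.Old0.Main
import Fermat.Agent.S44.Frame
import Fermat.Agent.S35.PMaps.Equiv

set_option autoImplicit false
set_option linter.unusedSectionVars false
set_option linter.style.haveILetI false

noncomputable section

open CongruenceSubgroup ModularCurve
open WeierstrassCurve
open Fermat.Agent.JT3 Fermat.Agent.S35

namespace Fermat.Agent.S44

/-- `s44c_level_of_map` with Hecke-equivariance on the `p`-torsion only -/
theorem s44c_level_of_map_tors (P : FreyPackage) (N M : ℕ) [NeZero N] [NeZero M]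
    (W : WeierstrassCurve ℤ) (ι : s44_Tors P →+ JZero N) (hι : s44_IsCopy P N W ι)
    (hNM : ∀ ℓ : ℕ, ℓ.Prime → ¬ ℓ ∣ M → ℓ ≠ P.p → ¬ ℓ ∣ N)
    (φ : JZero N →+ JZero M)
    (hφ : ∀ ℓ : Nat.Primes, ¬ (ℓ : ℕ) ∣ N → ∀ z : JZero N, P.p • z = 0 →
      φ (heckeOperatorBar N ℓ z) = heckeOperatorBar M ℓ (φ z))
    (y : s44_Tors P) (hy : φ (ι y) ≠ 0) : P.ModularRepOfLevel M := by
  have hpy : P.p • ι y = 0 := by rw [← map_nsmul, s44_tors_smul, map_zero]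
  refine s44c_level_of_eigen P M W hι.model (φ (ι y)) hy ?_ ?_
  · rw [← map_nsmul, hpy, map_zero]
  · intro ℓ hgood hℓM hℓp
    have hℓN : ¬ (ℓ : ℕ) ∣ N := hNM ℓ ℓ.2 hℓM hℓp
    rw [← hφ ℓ hℓN (ι y) hpy, hι.eigen ℓ hgood hℓN hℓp y, map_zsmul]

/-- **[OLD0] for the concrete frame** -/
theorem s44c_old0_frame (P : FreyPackage) (M : ℕ) [NeZero M] [NeZero (M * P.p)]
    (hpM : ¬ P.p ∣ M) : s44_Old0_stmt (s44_frame P M hpM) := by
  intro W ι hι hy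
  have hNM : ∀ ℓ : ℕ, ℓ.Prime → ¬ ℓ ∣ M → ℓ ≠ P.p → ¬ ℓ ∣ M * P.p := by
    intro ℓ hℓ hℓM hℓp h
    rcases (Nat.Prime.dvd_mul hℓ).mp h with h1 | h1
    · exact hℓM h1
    · exact hℓp ((Nat.prime_dvd_prime_iff_eq hℓ P.pp).mp h1)
  obtain ⟨y, hy | hy⟩ := hy
  · refine s44c_level_of_map_tors P (M * P.p) M W ι hι hNM (s35p_P1J M P.p) ?_ y hy
    intro ℓ hℓN z hz
    haveI : NeZero (ℓ : ℕ) := ⟨ℓ.2.ne_zero⟩
    exact s35p_P1J_hecke M P.p ℓ P.pp hpM ℓ.2 hℓN z P.p P.hp0 hz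
  · refine s44c_level_of_map_tors P (M * P.p) M W ι hι hNM (s35p_P2J M P.p) ?_ y hy
    intro ℓ hℓN z hz
    haveI : NeZero (ℓ : ℕ) := ⟨ℓ.2.ne_zero⟩
    exact s35p_P2J_hecke M P.p ℓ P.pp hpM ℓ.2 hℓN z P.p P.hp0 hz

end Fermat.Agent.S44
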