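/-
S44 / cell [C] OLD-0 (helper1), part 5: THE FIELD `old0` OF `s44_FrameOK` FOR THE FRAME v2
(`s44_frame2`, S44/Frame2.lean).  Same proof as `s44c_old0_frame`: only `as`, `bs` are used.

**`s44c_old0_frame2`** : `s44_Old0_stmt (s44_frame2 P M hpM)`.
Prefix `s44c_`.
-/
import Mathlib
import Fermat.Agent.S44.Old0.Frame
import Fermat.Agent.S44.Frame2

set_option autoImplicit false
set_option linter.unusedSectionVars false
set_option linter.style.haveILetI false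

noncomputable section

open CongruenceSubgroup ModularCurve
open WeierstrassCurve
open Fermat.Agent.JT3 Fermat.Agent.S35

namespace Fermat.Agent.S44

/-- **[OLD0] for the frame v2** -/
theorem s44c_old0_frame2 (P : FreyPackage) (M : ℕ) [NeZero M] [NeZero (M * P.p)]
    (hpM : ¬ P.p ∣ M) : s44_Old0_stmt (s44_frame2 P M hpM) := by
  intro W ι hι hy
  have hNM : ∀ ℓ : ℕ, ℓ.Prime → ¬ ℓ ∣ M → ℓ ≠ P.p → ¬ ℓ ∣ M * P.p := by
    intro ℓ hℓ hℓM hℓp h
    rcases (Nat.Prime.dvd_mul hℓ).mp h with h1 | h1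
    · exact hℓM h1
    · exact hℓp ((Nat.prime_dvd_prime_iff_eq hℓ P.pp).mp h1)
  obtain ⟨y, hy | hy⟩ := hy
  · refine s44c_level_of_map_tors P (M * P.p) M W ι hι hNM (s35p_P1J M P.p) ?_ y hy
    intro ℓ hℓN z hz
    haveI : NeZero (ℓ : ℕ) := ⟨ℓ.2.ne_zero⟩
    exact s35p_P1J_hecke M P.p ℓ P.pp hpM ℓ.2 hℓN z P.p P.hp0 hz
  · refine s44c_level_of_map_tors P (M * P.p) M W ι hι hNM (s35p_P2J M P.p) ?_ y hy
    intro ℓ hℓN z hz
    haveI : NeZero (ℓ : ℕ) := ⟨ℓ.2.ne_zero⟩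
    exact s35p_P2J_hecke M P.p ℓ P.pp hpM ℓ.2 hℓN z P.p P.hp0 hz

end Fermat.Agent.S44
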