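/-
S44 / cell [C] OLD-0 (helper1), (CHAR-T) part 2: THE CHARACTER OF A POINT OF `J₀(M)[p ^ n]`, ANY `n`.

* `s44c_vN M p n z hz : gh_H M →+ ZMod (p ^ n)` for `p ^ n • z = 0` (`s44c_vN_mk`);
* `s44c_vN_eq_zero` : injectivity;
* `s44c_vN_hecke` : `v_{T_ℓ z} = v_z ∘ T_H(ℓ)`;
* **`s44c_hecke_comm_tors`** : the Hecke operators `T_ℓ`, `T_ℓ'` (`ℓ, ℓ' ∤ M`) commute on the
  `p`-power torsion of `J₀(M)(ℚ̄)`.
Prefix `s44c_`.
-/
import Mathlib
import Fermat.Agent.S44.Old0.Char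

set_option autoImplicit false
set_option linter.unusedSectionVars false
set_option linter.style.haveILetI false
set_option synthInstance.maxHeartbeats 400000
set_option maxHeartbeats 1000000

noncomputable section

open CongruenceSubgroup ModularCurve
open Fermat.Agent.JT3

namespace Fermat.Agent.S44

variable (M p : ℕ) [NeZero M] [hp : Fact p.Prime]

theorem s44c_chi_tor (n : ℕ) (z : JZero M) (hz : p ^ n • z = 0) (γ : Gamma0 M) :
    tj_chi M p n z γ ^ (p ^ n) = 1 :=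
  (tj_charSystem (tjp_surj M p)).apply_pow_eq_one n hz γ

/-- the additive character `Γ₀(M) → ZMod (p ^ n)` of a `p ^ n`-torsion point -/
def s44c_phiN (n : ℕ) (z : JZero M) (hz : p ^ n • z = 0) :
    Additive (Gamma0 M) →+ ZMod (p ^ n) where
  toFun γ := (tl_rootsComplex p).log n (tj_chi M p n z (Additive.toMul γ))
  map_zero' := by
    show (tl_rootsComplex p).log n (tj_chi M p n z 1) = 0
    rw [map_one, tl_Roots.log_one]
  map_add' γ γ' := by
    show (tl_rootsComplex p).log n (tj_chi M p n z (Additive.toMul γ * Additive.toMul γ')) = _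
    rw [map_mul, tl_Roots.log_mul]
    · exact s44c_chi_tor M p n z hz _
    · exact s44c_chi_tor M p n z hz _

theorem s44c_phiN_apply (n : ℕ) (z : JZero M) (hz : p ^ n • z = 0) (γ : Gamma0 M) :
    s44c_phiN M p n z hz (Additive.ofMul γ) = (tl_rootsComplex p).log n (tj_chi M p n z γ) := rfl

theorem s44c_phiN_parEll (n : ℕ) (z : JZero M) (hz : p ^ n • z = 0) (γ : Gamma0 M)
    (hγ : gh_IsParEll M γ) : s44c_phiN M p n z hz (Additive.ofMul γ) = 0 := by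
  rw [s44c_phiN_apply, tj_chi_rel M p n z hz γ hγ, tl_Roots.log_one]

/-- the character `H → ZMod (p ^ n)` of a `p ^ n`-torsion point -/
def s44c_vN (n : ℕ) (z : JZero M) (hz : p ^ n • z = 0) : gh_H M →+ ZMod (p ^ n) :=
  gh_lift (s44c_phiN M p n z hz) (s44c_phiN_parEll M p n z hz)

theorem s44c_vN_mk (n : ℕ) (z : JZero M) (hz : p ^ n • z = 0) (γ : Gamma0 M) :
    s44c_vN M p n z hz (gh_mk M (Additive.ofMul γ)) =
      (tl_rootsComplex p).log n (tj_chi M p n z γ) := by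
  rw [s44c_vN, gh_lift_mk, s44c_phiN_apply]

/-- the character determines the value of `tj_chi` -/
theorem s44c_chi_eq_of_vN (n : ℕ) (z z' : JZero M) (hz : p ^ n • z = 0) (hz' : p ^ n • z' = 0)
    (h : s44c_vN M p n z hz = s44c_vN M p n z' hz') : tj_chi M p n z = tj_chi M p n z' := by
  ext γ
  have h1 : (tl_rootsComplex p).log n (tj_chi M p n z γ) =
      (tl_rootsComplex p).log n (tj_chi M p n z' γ) := by
    rw [← s44c_vN_mk M p n z hz γ, ← s44c_vN_mk M p n z' hz' γ, h]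
  have h2 : tj_chi M p n z γ = tj_chi M p n z' γ := by
    rw [← (tl_rootsComplex p).pow_log (s44c_chi_tor M p n z hz γ),
      ← (tl_rootsComplex p).pow_log (s44c_chi_tor M p n z' hz' γ), h1]
  rw [h2]

/-- injectivity of `z ↦ v_z` -/
theorem s44c_vN_inj (n : ℕ) (z z' : JZero M) (hz : p ^ n • z = 0) (hz' : p ^ n • z' = 0)
    (h : s44c_vN M p n z hz = s44c_vN M p n z' hz') : z = z' :=
  (tj_charSystem (tjp_surj M p)).eq_of_eq n hz hz' (s44c_chi_eq_of_vN M p n z z' hz hz' h)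

/-- Hecke equivariance, general form: `v_{T_ℓ z} = v_z ∘ T_H(ℓ)` -/
theorem s44c_vN_hecke (n : ℕ) (z : JZero M) (hz : p ^ n • z = 0) {ℓ : ℕ} [hℓ : Fact ℓ.Prime]
    (hℓM : ¬ ℓ ∣ M) (hTz : p ^ n • heckeOperatorBar M ⟨ℓ, hℓ.out⟩ z = 0) :
    s44c_vN M p n (heckeOperatorBar M ⟨ℓ, hℓ.out⟩ z) hTz =
      (s44c_vN M p n z hz).comp (t2e_TH hℓM) := by
  refine gh_hom_ext fun g => ?_
  obtain ⟨γ, rfl⟩ := Additive.ofMul.surjective g
  rw [AddMonoidHom.comp_apply, t2e_TH_mk, map_sum, s44c_vN_mk]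
  simp_rw [s44c_vN_mk]
  rw [← s44c_log_prod (tl_rootsComplex p) n Finset.univ
    (fun x => tj_chi M p n z (t2c_coc hℓM x γ)) (fun x _ => s44c_chi_tor M p n z hz _),
    ← t2c_T_apply, ← tjp_hH M p ℓ hℓM n z hz]

/-- `T_ℓ` preserves the `p ^ n`-torsion -/
theorem s44c_hecke_tor (n : ℕ) (z : JZero M) (hz : p ^ n • z = 0) (ℓ : Nat.Primes) :
    p ^ n • heckeOperatorBar M ℓ z = 0 := by
  rw [← map_nsmul, hz, map_zero]

/-- **the Hecke operators commute on the `p`-power torsion of `J₀(M)(ℚ̄)`** -/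
theorem s44c_hecke_comm_tors (n : ℕ) (z : JZero M) (hz : p ^ n • z = 0) (ℓ ℓ' : Nat.Primes)
    (hℓM : ¬ (ℓ : ℕ) ∣ M) (hℓ'M : ¬ (ℓ' : ℕ) ∣ M) :
    heckeOperatorBar M ℓ (heckeOperatorBar M ℓ' z) =
      heckeOperatorBar M ℓ' (heckeOperatorBar M ℓ z) := by
  haveI : Fact (ℓ : ℕ).Prime := ⟨ℓ.2⟩
  haveI : Fact (ℓ' : ℕ).Prime := ⟨ℓ'.2⟩
  have h1 := s44c_hecke_tor M p n z hz ℓ
  have h1' := s44c_hecke_tor M p n z hz ℓ'
  have h2 := s44c_hecke_tor M p n _ h1' ℓ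
  have h2' := s44c_hecke_tor M p n _ h1 ℓ'
  apply s44c_vN_inj M p n _ _ h2 h2'
  have e1 : s44c_vN M p n (heckeOperatorBar M ℓ (heckeOperatorBar M ℓ' z)) h2 =
      ((s44c_vN M p n z hz).comp (t2e_TH hℓ'M)).comp (t2e_TH hℓM) := by
    rw [← s44c_vN_hecke M p n z hz hℓ'M h1']
    exact s44c_vN_hecke M p n (heckeOperatorBar M ℓ' z) h1' hℓM h2
  have e2 : s44c_vN M p n (heckeOperatorBar M ℓ' (heckeOperatorBar M ℓ z)) h2' =
      ((s44c_vN M p n z hz).comp (t2e_TH hℓM)).comp (t2e_TH hℓ'M) := by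
    rw [← s44c_vN_hecke M p n z hz hℓM h1]
    exact s44c_vN_hecke M p n (heckeOperatorBar M ℓ z) h1 hℓ'M h2'
  rw [e1, e2, AddMonoidHom.comp_assoc, AddMonoidHom.comp_assoc, t2k_TH_comm hℓ'M hℓM]

end Fermat.Agent.S44
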