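/-
S44 / cell [C] OLD-0 (helper1), (CHAR-N) part 1: THE NAKAYAMA ALTERNATIVE FOR A FINITELY GENERATED
ABELIAN GROUP WITH COMMUTING OPERATORS.  Mathlib + `lrlf_exists_rho` only.

`s44c_nak` : `H` a finitely generated abelian group, `TH i` commuting endomorphisms, `a i : ℤ`,
`p` a prime.  EITHER there is a nonzero `v : H →+ ZMod p` with `v ∘ TH i = a i • v` for all `i`
(a functional on `H / 𝔪H`, `𝔪 = (p, T_i - a_i)`), OR there is an element `r` of the FREE algebra
`ℤ⟨Λ⟩` with `r(TH) = 0` on `H` and `r(a) ≡ 1 mod p` (Nakayama over `ℤ[X_i]`, lifted to the free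
algebra so that `r` can be evaluated at NON-commuting operators).
Prefix `s44c_`.
-/
import Mathlib
import Fermat.Agent.LR.Rib.Lift

set_option autoImplicit false
set_option linter.unusedSectionVars false
set_option linter.style.haveILetI false

noncomputable section

open MvPolynomial
open Fermat.Agent.LR

namespace Fermat.Agent.S44

variable {Λ : Type*} {H : Type*} [AddCommGroup H]

/-- the subgroup `𝔪 H = p H + ∑ (T_i - a_i) H` -/
def s44c_mH (TH : Λ → Module.End ℤ H) (a : Λ → ℤ) (p : ℕ) : AddSubgroup H :=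
  AddSubgroup.closure ({x | ∃ h : H, x = (p : ℤ) • h} ∪ {x | ∃ i, ∃ h : H, x = TH i h - a i • h})

/-- a nonzero vector of an `𝔽_p`-vector space is detected by an additive functional -/
theorem s44c_exists_functional {p : ℕ} [Fact p.Prime] {Q : Type*} [AddCommGroup Q]
    [Module (ZMod p) Q] (q : Q) (hq : q ≠ 0) : ∃ φ : Q →+ ZMod p, φ q ≠ 0 := by
  by_contra hall
  push Not at hall
  refine hq ((Module.forall_dual_apply_eq_zero_iff (ZMod p) q).mp fun φ => ?_)
  exact hall φ.toAddMonoidHom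

/-- case `H ≠ 𝔪 H`: a nonzero eigen-functional -/
theorem s44c_nak_functional (TH : Λ → Module.End ℤ H) (a : Λ → ℤ) {p : ℕ} (hp : p.Prime)
    (hne : s44c_mH TH a p ≠ ⊤) :
    ∃ v : H →+ ZMod p, v ≠ 0 ∧
      ∀ i, v.comp (TH i).toAddMonoidHom = ((a i : ℤ) : ZMod p) • v := by
  haveI : Fact p.Prime := ⟨hp⟩
  set K := s44c_mH TH a p with hK
  obtain ⟨h₀, hh₀⟩ : ∃ h₀ : H, h₀ ∉ K := by
    by_contra hall
    push Not at hall
    exact hne (eq_top_iff.mpr fun x _ => hall x)
  have hpQ : ∀ x : H ⧸ K, p • x = 0 := by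
    intro x
    obtain ⟨h, rfl⟩ := QuotientAddGroup.mk_surjective x
    rw [← QuotientAddGroup.mk_nsmul, QuotientAddGroup.eq_zero_iff]
    refine AddSubgroup.subset_closure (Or.inl ⟨h, ?_⟩)
    rw [natCast_zsmul]
  letI : Module (ZMod p) (H ⧸ K) := AddCommGroup.zmodModule hpQ
  have hmk : (QuotientAddGroup.mk h₀ : H ⧸ K) ≠ 0 := by
    rw [Ne, QuotientAddGroup.eq_zero_iff]
    exact hh₀
  obtain ⟨φ, hφ⟩ := s44c_exists_functional (p := p) (QuotientAddGroup.mk h₀ : H ⧸ K) hmk
  refine ⟨φ.comp (QuotientAddGroup.mk' K), ?_, ?_⟩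
  · intro h
    exact hφ (DFunLike.congr_fun h h₀)
  · intro i
    refine AddMonoidHom.ext fun h => ?_
    have h1 : (QuotientAddGroup.mk (TH i h) : H ⧸ K) = QuotientAddGroup.mk (a i • h) := by
      rw [QuotientAddGroup.eq_iff_sub_mem]
      exact AddSubgroup.subset_closure (Or.inr ⟨i, h, rfl⟩)
    show φ (QuotientAddGroup.mk (TH i h)) = ((a i : ℤ) : ZMod p) • φ (QuotientAddGroup.mk h)
    rw [h1, QuotientAddGroup.mk_zsmul, map_zsmul, zsmul_eq_mul, smul_eq_mul]

/-- evaluation of the free algebra at a commuting family factors through the polynomial ring -/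
theorem s44c_lift_factor (TH : Λ → Module.End ℤ H) (hcomm : ∀ i j, Commute (TH i) (TH j)) :
    ∃ ρ : MvPolynomial Λ ℤ →+* Module.End ℤ H, ∀ x : FreeAlgebra ℤ Λ,
      FreeAlgebra.lift ℤ TH x =
        ρ (FreeAlgebra.lift ℤ (fun i => (X i : MvPolynomial Λ ℤ)) x) := by
  obtain ⟨ρ, hρC, hρX⟩ := lrlf_exists_rho (R := ℤ) TH hcomm
  refine ⟨ρ, fun x => ?_⟩
  induction x using FreeAlgebra.induction with
  | grade0 n => rw [AlgHom.commutes, AlgHom.commutes, MvPolynomial.algebraMap_eq, hρC]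
  | grade1 i => rw [FreeAlgebra.lift_ι_apply, FreeAlgebra.lift_ι_apply, hρX]
  | mul x y hx hy => rw [map_mul, map_mul, map_mul, hx, hy]
  | add x y hx hy => rw [map_add, map_add, map_add, hx, hy]

/-- the evaluations of the free algebra at a commuting family commute -/
theorem s44c_lift_commute (TH : Λ → Module.End ℤ H) (hcomm : ∀ i j, Commute (TH i) (TH j))
    (x y : FreeAlgebra ℤ Λ) :
    FreeAlgebra.lift ℤ TH x * FreeAlgebra.lift ℤ TH y =
      FreeAlgebra.lift ℤ TH y * FreeAlgebra.lift ℤ TH x := by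
  obtain ⟨ρ, hρ⟩ := s44c_lift_factor TH hcomm
  rw [hρ x, hρ y, ← map_mul ρ, ← map_mul ρ, mul_comm]

variable [Module.Finite ℤ H]

/-- case `H = 𝔪 H`: Nakayama, lifted to the free algebra -/
theorem s44c_nak_free (TH : Λ → Module.End ℤ H) (hcomm : ∀ i j, Commute (TH i) (TH j))
    (a : Λ → ℤ) {p : ℕ} (htop : s44c_mH TH a p = ⊤) :
    ∃ r : FreeAlgebra ℤ Λ, FreeAlgebra.lift ℤ TH r = 0 ∧
      ∃ c : ℤ, FreeAlgebra.lift ℤ a r = 1 + (p : ℤ) * c := by
  classical
  obtain ⟨ρ, hρC, hρX⟩ := lrlf_exists_rho (R := ℤ) TH hcomm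
  letI : Module (MvPolynomial Λ ℤ) H := Module.compHom H ρ
  have hsmul : ∀ (r : MvPolynomial Λ ℤ) (h : H), r • h = ρ r h := fun r h => rfl
  have hC : ∀ (n : ℤ) (h : H), (C n : MvPolynomial Λ ℤ) • h = n • h := by
    intro n h
    rw [hsmul, hρC]
    rfl
  let 𝔪 : Ideal (MvPolynomial Λ ℤ) :=
    Ideal.span ({C (p : ℤ)} ∪ Set.range fun i => (X i - C (a i) : MvPolynomial Λ ℤ))
  -- `H = 𝔪 H`
  have hin : (⊤ : Submodule (MvPolynomial Λ ℤ) H) ≤ 𝔪 • ⊤ := by
    intro h hmem
    clear hmem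
    have hh : h ∈ s44c_mH TH a p := by rw [htop]; exact AddSubgroup.mem_top h
    induction hh using AddSubgroup.closure_induction with
    | mem x hx =>
      rcases hx with ⟨h₀, rfl⟩ | ⟨i, h₀, rfl⟩
      · rw [← hC]
        exact Submodule.smul_mem_smul (Ideal.subset_span (Or.inl rfl)) Submodule.mem_top
      · have : TH i h₀ - a i • h₀ = (X i - C (a i) : MvPolynomial Λ ℤ) • h₀ := by
          rw [sub_smul, hC, hsmul, hρX]
        rw [this]
        exact Submodule.smul_mem_smul (Ideal.subset_span (Or.inr ⟨i, rfl⟩)) Submodule.mem_top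
    | zero => exact Submodule.zero_mem _
    | add x y _ _ hx hy => exact Submodule.add_mem _ hx hy
    | neg x _ hx => exact Submodule.neg_mem _ hx
  -- finite generation
  have hfg : (⊤ : Submodule (MvPolynomial Λ ℤ) H).FG := by
    obtain ⟨s, hs⟩ := (Module.Finite.fg_top : (⊤ : Submodule ℤ H).FG)
    refine ⟨s, eq_top_iff.mpr fun h hmem => ?_⟩
    clear hmem
    have hh : h ∈ Submodule.span ℤ (s : Set H) := by rw [hs]; exact Submodule.mem_top
    induction hh using Submodule.span_induction with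
    | mem x hx => exact Submodule.subset_span hx
    | zero => exact Submodule.zero_mem _
    | add x y _ _ hx hy => exact Submodule.add_mem _ hx hy
    | smul n x _ hx =>
      rw [← hC]
      exact Submodule.smul_mem _ _ hx
  obtain ⟨r, hr1, hr0⟩ :=
    Submodule.exists_sub_one_mem_and_smul_eq_zero_of_fg_of_le_smul 𝔪 ⊤ hfg hin
  have hρr : ρ r = 0 := LinearMap.ext fun h => hr0 h Submodule.mem_top
  -- the free algebra
  let πF : FreeAlgebra ℤ Λ →ₐ[ℤ] MvPolynomial Λ ℤ := FreeAlgebra.lift ℤ fun i => X i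
  have hπF : Function.Surjective πF := by
    rw [← AlgHom.range_eq_top, eq_top_iff, ← MvPolynomial.adjoin_range_X]
    refine Algebra.adjoin_le ?_
    rintro _ ⟨i, rfl⟩
    exact ⟨FreeAlgebra.ι ℤ i, FreeAlgebra.lift_ι_apply _ i⟩
  obtain ⟨r', hr'⟩ := hπF r
  refine ⟨r', ?_, ?_⟩
  · have h1 : ∀ x : FreeAlgebra ℤ Λ, FreeAlgebra.lift ℤ TH x = ρ (πF x) := by
      intro x
      induction x using FreeAlgebra.induction with
      | grade0 n =>
        rw [AlgHom.commutes, AlgHom.commutes, MvPolynomial.algebraMap_eq, hρC]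
      | grade1 i =>
        rw [FreeAlgebra.lift_ι_apply, FreeAlgebra.lift_ι_apply, hρX]
      | mul x y hx hy => rw [map_mul, map_mul, map_mul, hx, hy]
      | add x y hx hy => rw [map_add, map_add, map_add, hx, hy]
    rw [h1, hr']
    exact hρr
  · have h2 : ∀ x : FreeAlgebra ℤ Λ, FreeAlgebra.lift ℤ a x =
        (MvPolynomial.aeval a : MvPolynomial Λ ℤ →ₐ[ℤ] ℤ) (πF x) := by
      intro x
      induction x using FreeAlgebra.induction with
      | grade0 n =>
        rw [AlgHom.commutes, AlgHom.commutes, AlgHom.commutes]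
      | grade1 i =>
        rw [FreeAlgebra.lift_ι_apply, FreeAlgebra.lift_ι_apply, MvPolynomial.aeval_X]
      | mul x y hx hy => rw [map_mul, map_mul, map_mul, hx, hy]
      | add x y hx hy => rw [map_add, map_add, map_add, hx, hy]
    have hle : 𝔪 ≤ Ideal.comap (MvPolynomial.aeval a : MvPolynomial Λ ℤ →ₐ[ℤ] ℤ)
        (Ideal.span {(p : ℤ)}) := by
      refine Ideal.span_le.mpr ?_
      rintro x (rfl | ⟨i, rfl⟩)
      · rw [SetLike.mem_coe, Ideal.mem_comap, MvPolynomial.aeval_C]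
        exact Ideal.subset_span rfl
      · rw [SetLike.mem_coe, Ideal.mem_comap, map_sub, MvPolynomial.aeval_X, MvPolynomial.aeval_C]
        simp
    have h3 := hle hr1
    rw [Ideal.mem_comap, map_sub, map_one, Ideal.mem_span_singleton'] at h3
    obtain ⟨c, hc⟩ := h3
    refine ⟨c, ?_⟩
    rw [h2, hr']
    linarith

/-- **the Nakayama alternative** -/
theorem s44c_nak (TH : Λ → Module.End ℤ H) (hcomm : ∀ i j, Commute (TH i) (TH j))
    (a : Λ → ℤ) {p : ℕ} (hp : p.Prime) :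
    (∃ v : H →+ ZMod p, v ≠ 0 ∧
      ∀ i, v.comp (TH i).toAddMonoidHom = ((a i : ℤ) : ZMod p) • v) ∨
    (∃ r : FreeAlgebra ℤ Λ, FreeAlgebra.lift ℤ TH r = 0 ∧
      ∃ c : ℤ, FreeAlgebra.lift ℤ a r = 1 + (p : ℤ) * c) := by
  by_cases htop : s44c_mH TH a p = ⊤
  · exact Or.inr (s44c_nak_free TH hcomm a htop)
  · exact Or.inl (s44c_nak_functional TH a hp htop)

end Fermat.Agent.S44
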