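/-
S44 / cell [C] OLD-0 (helper1), (CHAR-N) part 2: THE CHARACTER MAP AS A HOMOMORPHISM, AND ITS
EQUIVARIANCE UNDER NONCOMMUTATIVE HECKE POLYNOMIALS.

* `s44c_torsN M p n` : the subgroup `J₀(M)[p ^ n]`;  `s44c_XN M p n : J₀(M)[p^n] →+ Hom(H, ℤ/p^n)`,
  injective (`s44c_XN_injective`);
* `s44c_res f` : the restriction of an endomorphism of `J₀(M)` to `J₀(M)[p ^ n]`;
* `s44c_XN_free` : for `x` in the free algebra on the primes `ℓ i ∤ M`,
  `X_n (x(T) z) = X_n z ∘ x(T_H)`;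
* **`s44c_free_kills_tors`** : if `x(T_H) = 0` on `H = gh_H M` then `x(T)` kills the `p`-power
  torsion of `J₀(M)(ℚ̄)`.
Prefix `s44c_`.
-/
import Mathlib
import Fermat.Agent.S44.Old0.Char2
import Fermat.Agent.S44.Old0.Nak

set_option autoImplicit false
set_option linter.unusedSectionVars false
set_option linter.style.haveILetI false
set_option synthInstance.maxHeartbeats 400000
set_option maxHeartbeats 1000000

noncomputable section

open CongruenceSubgroup ModularCurve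
open Fermat.Agent.JT3

namespace Fermat.Agent.S44

variable (M p : ℕ) [NeZero M] [hp : Fact p.Prime]

theorem s44c_vN_zero (n : ℕ) (h0 : p ^ n • (0 : JZero M) = 0) : s44c_vN M p n 0 h0 = 0 := by
  refine gh_hom_ext fun g => ?_
  obtain ⟨γ, rfl⟩ := Additive.ofMul.surjective g
  rw [s44c_vN_mk, AddMonoidHom.zero_apply]
  have h1 : tj_chi M p n 0 = 1 := (tj_charSystem (tjp_surj M p)).map_zero n
  rw [h1, MonoidHom.one_apply, tl_Roots.log_one]

theorem s44c_vN_add (n : ℕ) (z z' : JZero M) (hz : p ^ n • z = 0) (hz' : p ^ n • z' = 0)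
    (hzz' : p ^ n • (z + z') = 0) :
    s44c_vN M p n (z + z') hzz' = s44c_vN M p n z hz + s44c_vN M p n z' hz' := by
  refine gh_hom_ext fun g => ?_
  obtain ⟨γ, rfl⟩ := Additive.ofMul.surjective g
  rw [AddMonoidHom.add_apply, s44c_vN_mk, s44c_vN_mk, s44c_vN_mk, tj_chi_add M p n z z' hz hz',
    MonoidHom.mul_apply, tl_Roots.log_mul _ (s44c_chi_tor M p n z hz γ)
      (s44c_chi_tor M p n z' hz' γ)]

/-- the subgroup `J₀(M)[p ^ n]` -/
def s44c_torsN (n : ℕ) : AddSubgroup (JZero M) where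
  carrier := {z | p ^ n • z = 0}
  zero_mem' := smul_zero _
  add_mem' := by
    intro a b ha hb
    show p ^ n • (a + b) = 0
    rw [nsmul_add, ha, hb, add_zero]
  neg_mem' := by
    intro a ha
    show p ^ n • (-a) = 0
    rw [neg_nsmul, ha, neg_zero]

theorem s44c_mem_torsN {n : ℕ} {z : JZero M} : z ∈ s44c_torsN M p n ↔ p ^ n • z = 0 := Iff.rfl

/-- the character map `J₀(M)[p ^ n] →+ Hom(H, ℤ/p^n)` -/
def s44c_XN (n : ℕ) : s44c_torsN M p n →+ (gh_H M →+ ZMod (p ^ n)) where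
  toFun z := s44c_vN M p n z.1 z.2
  map_zero' := s44c_vN_zero M p n _
  map_add' z z' := s44c_vN_add M p n z.1 z'.1 z.2 z'.2 _

theorem s44c_XN_apply (n : ℕ) (z : s44c_torsN M p n) :
    s44c_XN M p n z = s44c_vN M p n z.1 z.2 := rfl

theorem s44c_XN_injective (n : ℕ) : Function.Injective (s44c_XN M p n) := by
  intro z z' h
  exact Subtype.ext (s44c_vN_inj M p n z.1 z'.1 z.2 z'.2 h)

/-- restriction of an endomorphism of `J₀(M)` to `J₀(M)[p ^ n]` -/
def s44c_res (n : ℕ) (f : Module.End ℤ (JZero M)) : s44c_torsN M p n →+ s44c_torsN M p n :=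
  (f.toAddMonoidHom.comp (s44c_torsN M p n).subtype).codRestrict (s44c_torsN M p n) (by
    intro z
    show p ^ n • f z.1 = 0
    rw [← map_nsmul, z.2, map_zero])

theorem s44c_res_coe (n : ℕ) (f : Module.End ℤ (JZero M)) (z : s44c_torsN M p n) :
    ((s44c_res M p n f z : s44c_torsN M p n) : JZero M) = f z.1 := rfl

section Free

variable {Λ : Type*} (ℓ : Λ → Nat.Primes)

/-- the Hecke operators `T_H (ℓ i)` on `H` commute -/
theorem s44c_TH_commute (hℓM : ∀ i, ¬ ((ℓ i : ℕ) ∣ M)) (i j : Λ) :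
    Commute (t2f_TH M (ℓ i : ℕ)) (t2f_TH M (ℓ j : ℕ)) := by
  haveI : Fact ((ℓ i : ℕ)).Prime := ⟨(ℓ i).2⟩
  haveI : Fact ((ℓ j : ℕ)).Prime := ⟨(ℓ j).2⟩
  refine LinearMap.ext fun x => ?_
  show t2f_TH M (ℓ i : ℕ) (t2f_TH M (ℓ j : ℕ) x) = t2f_TH M (ℓ j : ℕ) (t2f_TH M (ℓ i : ℕ) x)
  rw [t2f_TH_apply (ℓ j).2 (hℓM j), t2f_TH_apply (ℓ i).2 (hℓM i), t2f_TH_apply (ℓ i).2 (hℓM i),
    t2f_TH_apply (ℓ j).2 (hℓM j)]
  exact DFunLike.congr_fun (t2k_TH_comm (hℓM i) (hℓM j)) x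

/-- **equivariance of the character map under noncommutative Hecke polynomials** -/
theorem s44c_XN_free (hℓM : ∀ i, ¬ ((ℓ i : ℕ) ∣ M)) (n : ℕ) (x : FreeAlgebra ℤ Λ)
    (z : s44c_torsN M p n) :
    s44c_XN M p n (s44c_res M p n (FreeAlgebra.lift ℤ (fun i => heckeOperatorBar M (ℓ i)) x) z) =
      (s44c_XN M p n z).comp
        (FreeAlgebra.lift ℤ (fun i => t2f_TH M (ℓ i : ℕ)) x).toAddMonoidHom := by
  induction x using FreeAlgebra.induction generalizing z with
  | grade0 k =>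
    have h1 : s44c_res M p n (FreeAlgebra.lift ℤ (fun i => heckeOperatorBar M (ℓ i))
        (algebraMap ℤ (FreeAlgebra ℤ Λ) k)) z = k • z := by
      apply Subtype.ext
      rw [s44c_res_coe, AlgHom.commutes, Module.algebraMap_end_apply]
      rfl
    rw [h1, map_zsmul, AlgHom.commutes]
    refine AddMonoidHom.ext fun h => ?_
    rw [AddMonoidHom.smul_apply, AddMonoidHom.comp_apply]
    show _ = (s44c_XN M p n z) ((algebraMap ℤ (Module.End ℤ (gh_H M)) k) h)
    rw [Module.algebraMap_end_apply, map_zsmul]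
  | grade1 i =>
    haveI : Fact ((ℓ i : ℕ)).Prime := ⟨(ℓ i).2⟩
    rw [FreeAlgebra.lift_ι_apply, FreeAlgebra.lift_ι_apply, s44c_XN_apply, s44c_XN_apply]
    have h1 := s44c_vN_hecke M p n z.1 z.2 (hℓM i) (s44c_hecke_tor M p n z.1 z.2 (ℓ i))
    refine h1.trans ?_
    refine AddMonoidHom.ext fun h => ?_
    rw [AddMonoidHom.comp_apply, AddMonoidHom.comp_apply]
    exact congrArg _ (t2f_TH_apply (ℓ i).2 (hℓM i) h).symm
  | mul x y hx hy =>
    have h1 : s44c_res M p n (FreeAlgebra.lift ℤ (fun i => heckeOperatorBar M (ℓ i)) (x * y)) z =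
        s44c_res M p n (FreeAlgebra.lift ℤ (fun i => heckeOperatorBar M (ℓ i)) x)
          (s44c_res M p n (FreeAlgebra.lift ℤ (fun i => heckeOperatorBar M (ℓ i)) y) z) := by
      apply Subtype.ext
      rw [s44c_res_coe, s44c_res_coe, s44c_res_coe, map_mul]
      rfl
    rw [h1, hx, hy, map_mul, s44c_lift_commute _ (s44c_TH_commute M ℓ hℓM) x y]
    rfl
  | add x y hx hy =>
    have h1 : s44c_res M p n (FreeAlgebra.lift ℤ (fun i => heckeOperatorBar M (ℓ i)) (x + y)) z =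
        s44c_res M p n (FreeAlgebra.lift ℤ (fun i => heckeOperatorBar M (ℓ i)) x) z +
          s44c_res M p n (FreeAlgebra.lift ℤ (fun i => heckeOperatorBar M (ℓ i)) y) z := by
      apply Subtype.ext
      rw [AddSubgroup.coe_add, s44c_res_coe, s44c_res_coe, s44c_res_coe, map_add]
      rfl
    rw [h1, map_add, hx, hy, map_add]
    refine AddMonoidHom.ext fun h => ?_
    rw [AddMonoidHom.add_apply, AddMonoidHom.comp_apply, AddMonoidHom.comp_apply,
      AddMonoidHom.comp_apply]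
    show _ = (s44c_XN M p n z) ((FreeAlgebra.lift ℤ (fun i => t2f_TH M (ℓ i : ℕ)) x +
      FreeAlgebra.lift ℤ (fun i => t2f_TH M (ℓ i : ℕ)) y) h)
    rw [LinearMap.add_apply, map_add]
    rfl

/-- **a Hecke polynomial killing `H = gh_H M` kills the `p`-power torsion of `J₀(M)(ℚ̄)`** -/
theorem s44c_free_kills_tors (hℓM : ∀ i, ¬ ((ℓ i : ℕ) ∣ M)) (x : FreeAlgebra ℤ Λ)
    (hx : FreeAlgebra.lift ℤ (fun i => t2f_TH M (ℓ i : ℕ)) x = 0) (z : JZero M) (n : ℕ)
    (hz : p ^ n • z = 0) :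
    FreeAlgebra.lift ℤ (fun i => heckeOperatorBar M (ℓ i)) x z = 0 := by
  have h1 := s44c_XN_free M p ℓ hℓM n x ⟨z, hz⟩
  rw [hx] at h1
  have h2 : s44c_XN M p n
      (s44c_res M p n (FreeAlgebra.lift ℤ (fun i => heckeOperatorBar M (ℓ i)) x) ⟨z, hz⟩) =
      s44c_XN M p n 0 := by
    rw [h1, map_zero]
    refine AddMonoidHom.ext fun h => ?_
    rw [AddMonoidHom.comp_apply, AddMonoidHom.zero_apply]
    show (s44c_XN M p n ⟨z, hz⟩) ((0 : Module.End ℤ (gh_H M)) h) = 0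
    rw [LinearMap.zero_apply, map_zero]
  have h3 := s44c_XN_injective M p n h2
  have h4 := congrArg Subtype.val h3
  rw [s44c_res_coe] at h4
  exact h4

end Free

end Fermat.Agent.S44
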