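/-
S44 / cell [C] OLD-0 (helper1), (CHAR-T) part 1: A FITTING LEMMA FOR A COMMUTING FAMILY OF
ENDOMORPHISMS OF A FINITE ABELIAN GROUP.  Mathlib only.

`s44c_fin_eigen` : `N` a finite abelian group, `u i : N →+ N` pairwise commuting, `π : N →+ Q`
additive, `π ≠ 0`, `π ∘ u i = 0` for all `i`.  Then there is `y ≠ 0` in `N` with `u i y = 0` for
all `i`.  ("An eigen-quotient of a finite Hecke module gives an eigenvector.")
Prefix `s44c_`.
-/
import Mathlib

set_option autoImplicit false

namespace Fermat.Agent.S44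

variable {N : Type*} [AddCommGroup N] [Finite N] {I : Type*} (u : I → N →+ N)

/-- a proper subgroup of a finite group has fewer elements -/
theorem s44c_card_lt {K K' : AddSubgroup N} (h : K' < K) : Nat.card K' < Nat.card K := by
  have h1 : (K' : Set N) ⊂ (K : Set N) := by
    rw [Set.ssubset_iff_subset_ne]
    refine ⟨h.le, fun he => ?_⟩
    exact h.ne (SetLike.coe_injective he)
  have h2 := Set.ncard_lt_ncard h1 (Set.toFinite _)
  rw [← Nat.card_coe_set_eq, ← Nat.card_coe_set_eq] at h2
  exact h2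

/-- step 2: on a nonzero stable subgroup on which every `u i` is locally nilpotent, the `u i` have
a common nonzero kernel vector -/
theorem s44c_fin_nilp (hcomm : ∀ i j x, u i (u j x) = u j (u i x)) :
    ∀ (n : ℕ) (K : AddSubgroup N), Nat.card K = n → (∀ i, ∀ x ∈ K, u i x ∈ K) →
      (∃ x ∈ K, x ≠ 0) → (∀ i, ∀ x ∈ K, ∃ m : ℕ, (u i)^[m] x = 0) →
      ∃ y : N, y ∈ K ∧ y ≠ 0 ∧ ∀ i, u i y = 0 := by
  intro n
  induction n using Nat.strong_induction_on with
  | _ n ih =>
    intro K hK hst hne hnil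
    by_cases hall : ∀ i, ∀ x ∈ K, u i x = 0
    · obtain ⟨x, hxK, hx0⟩ := hne
      exact ⟨x, hxK, hx0, fun i => hall i x hxK⟩
    · push Not at hall
      obtain ⟨i, x₀, hx₀K, hx₀⟩ := hall
      -- the kernel of `u i` inside `K`
      let K' : AddSubgroup N := K ⊓ (u i).ker
      have hK'lt : K' < K := by
        refine lt_of_le_of_ne inf_le_left fun he => ?_
        have : x₀ ∈ K' := by rw [he]; exact hx₀K
        exact hx₀ (AddMonoidHom.mem_ker.mp (AddSubgroup.mem_inf.mp this).2)
      have hK'st : ∀ j, ∀ x ∈ K', u j x ∈ K' := by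
        intro j x hx
        obtain ⟨hx1, hx2⟩ := AddSubgroup.mem_inf.mp hx
        refine AddSubgroup.mem_inf.mpr ⟨hst j x hx1, AddMonoidHom.mem_ker.mpr ?_⟩
        rw [hcomm i j x, AddMonoidHom.mem_ker.mp hx2, map_zero]
      have hK'ne : ∃ x ∈ K', x ≠ 0 := by
        obtain ⟨x, hxK, hx0⟩ := hne
        obtain ⟨m, hm⟩ := hnil i x hxK
        -- the least `m` with `u^m x = 0`
        classical
        let m₀ := Nat.find (⟨m, hm⟩ : ∃ m : ℕ, (u i)^[m] x = 0)
        have hm₀ : (u i)^[m₀] x = 0 := Nat.find_spec (⟨m, hm⟩ : ∃ m : ℕ, (u i)^[m] x = 0)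
        have hm₀pos : m₀ ≠ 0 := by
          intro h0
          rw [h0] at hm₀
          exact hx0 hm₀
        obtain ⟨k, hk⟩ := Nat.exists_eq_succ_of_ne_zero hm₀pos
        have hk' : (u i)^[k] x ≠ 0 := by
          have : k < m₀ := by omega
          exact Nat.find_min (⟨m, hm⟩ : ∃ m : ℕ, (u i)^[m] x = 0) this
        have hiter : ∀ j : ℕ, (u i)^[j] x ∈ K := by
          intro j
          induction j with
          | zero => exact hxK
          | succ j ihj =>
            rw [Function.iterate_succ_apply']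
            exact hst i _ ihj
        refine ⟨(u i)^[k] x, AddSubgroup.mem_inf.mpr ⟨hiter k, AddMonoidHom.mem_ker.mpr ?_⟩, hk'⟩
        have h3 : u i ((u i)^[k] x) = (u i)^[k.succ] x :=
          (Function.iterate_succ_apply' (u i) k x).symm
        rw [h3, ← hk]
        exact hm₀
      obtain ⟨y, hyK', hy0, hy⟩ := ih (Nat.card K') (by rw [← hK]; exact s44c_card_lt hK'lt) K' rfl
        hK'st hK'ne (fun j x hx => hnil j x (AddSubgroup.mem_inf.mp hx).1)
      exact ⟨y, (AddSubgroup.mem_inf.mp hyK').1, hy0, hy⟩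

variable {Q : Type*} [AddCommGroup Q] (π : N →+ Q)

/-- step 1: a stable subgroup on which `π ≠ 0`, minimal with these properties -/
theorem s44c_fin_min (hcomm : ∀ i j x, u i (u j x) = u j (u i x))
    (hπu : ∀ i x, π (u i x) = 0) :
    ∀ (n : ℕ) (K : AddSubgroup N), Nat.card K = n → (∀ i, ∀ x ∈ K, u i x ∈ K) →
      (∃ x ∈ K, π x ≠ 0) → ∃ y : N, y ≠ 0 ∧ ∀ i, u i y = 0 := by
  intro n
  induction n using Nat.strong_induction_on with
  | _ n ih =>
    intro K hK hst hπK
    -- either every `u i` is locally nilpotent on `K`, or we can shrink `K`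
    by_cases hnil : ∀ i, ∀ x ∈ K, ∃ m : ℕ, (u i)^[m] x = 0
    · obtain ⟨x, hxK, hx⟩ := hπK
      have hne : ∃ x ∈ K, x ≠ 0 := ⟨x, hxK, fun h => hx (by rw [h, map_zero])⟩
      obtain ⟨y, -, hy0, hy⟩ := s44c_fin_nilp u hcomm (Nat.card K) K rfl hst hne hnil
      exact ⟨y, hy0, hy⟩
    · push Not at hnil
      obtain ⟨i, x₀, hx₀K, hx₀⟩ := hnil
      -- the generalised kernel of `u i` inside `K`
      let Ki : AddSubgroup N :=
        { carrier := {x | x ∈ K ∧ ∃ m : ℕ, (u i)^[m] x = 0}
          zero_mem' := ⟨K.zero_mem, 0, rfl⟩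
          add_mem' := by
            rintro a b ⟨haK, ma, ha⟩ ⟨hbK, mb, hb⟩
            refine ⟨K.add_mem haK hbK, ma + mb, ?_⟩
            have h1 : (u i)^[ma + mb] a = 0 := by
              rw [add_comm, Function.iterate_add_apply, ha, iterate_map_zero]
            have h2 : (u i)^[ma + mb] b = 0 := by
              rw [Function.iterate_add_apply, hb, iterate_map_zero]
            rw [iterate_map_add, h1, h2, add_zero]
          neg_mem' := by
            rintro a ⟨haK, ma, ha⟩
            refine ⟨K.neg_mem haK, ma, ?_⟩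
            rw [iterate_map_neg, ha, neg_zero] }
      have hKi_le : Ki ≤ K := fun x hx => hx.1
      have hKilt : Ki < K := by
        refine lt_of_le_of_ne hKi_le fun he => ?_
        have : x₀ ∈ Ki := by rw [he]; exact hx₀K
        obtain ⟨m, hm⟩ := this.2
        exact hx₀ m hm
      have hcomm_iter : ∀ (j : I) (m : ℕ) (x : N), (u i)^[m] (u j x) = u j ((u i)^[m] x) := by
        intro j m
        induction m with
        | zero => intro x; rfl
        | succ m ihm =>
          intro x
          rw [Function.iterate_succ_apply, Function.iterate_succ_apply, ← ihm, hcomm i j x]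
      have hKist : ∀ j, ∀ x ∈ Ki, u j x ∈ Ki := by
        rintro j x ⟨hxK, m, hm⟩
        refine ⟨hst j x hxK, m, ?_⟩
        rw [hcomm_iter, hm, map_zero]
      have hiterK : ∀ (x : N), x ∈ K → ∀ m : ℕ, (u i)^[m] x ∈ K := by
        intro x hx m
        induction m with
        | zero => exact hx
        | succ m ihm =>
          rw [Function.iterate_succ_apply']
          exact hst i _ ihm
      have hπiter : ∀ (x : N) (m : ℕ), m ≠ 0 → π ((u i)^[m] x) = 0 := by
        intro x m hm
        obtain ⟨k, rfl⟩ := Nat.exists_eq_succ_of_ne_zero hm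
        rw [Function.iterate_succ_apply']
        exact hπu i _
      have hπKi : ∃ x ∈ Ki, π x ≠ 0 := by
        obtain ⟨x, hxK, hx⟩ := hπK
        -- pigeonhole on the iterates of `x`
        obtain ⟨m, m', hmm', hiter⟩ :=
          Finite.exists_ne_map_eq_of_infinite (fun m : ℕ => (u i)^[m] x)
        wlog hlt : m < m' generalizing m m'
        · exact this m' m hmm'.symm hiter.symm (lt_of_le_of_ne (not_lt.mp hlt) hmm'.symm)
        obtain ⟨a, ha⟩ : ∃ a : ℕ, m' = m + a := ⟨m' - m, by omega⟩
        have ha0 : a ≠ 0 := by omega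
        refine ⟨x - (u i)^[a] x, ⟨K.sub_mem hxK (hiterK x hxK a), m, ?_⟩, ?_⟩
        · rw [iterate_map_sub, ← Function.iterate_add_apply, ← ha]
          exact sub_eq_zero.mpr hiter
        · rw [map_sub, hπiter x a ha0, sub_zero]
          exact hx
      exact ih (Nat.card Ki) (by rw [← hK]; exact s44c_card_lt hKilt) Ki rfl hKist hπKi

/-- **the Fitting lemma**: an eigen-quotient of a finite module over a commuting family gives an
eigenvector -/
theorem s44c_fin_eigen (hcomm : ∀ i j x, u i (u j x) = u j (u i x)) (hπ : π ≠ 0)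
    (hπu : ∀ i x, π (u i x) = 0) : ∃ y : N, y ≠ 0 ∧ ∀ i, u i y = 0 := by
  have hπK : ∃ x ∈ (⊤ : AddSubgroup N), π x ≠ 0 := by
    by_contra h
    push Not at h
    exact hπ (AddMonoidHom.ext fun x => h x (AddSubgroup.mem_top x))
  exact s44c_fin_min u π hcomm hπu (Nat.card (⊤ : AddSubgroup N)) ⊤ rfl
    (fun _ _ _ => AddSubgroup.mem_top _) hπK

end Fermat.Agent.S44
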