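/-
S44 / cell [C] OLD-0 (helper1), (CHAR-T): AN EIGEN-CLASS IN A HECKE-EQUIVARIANT QUOTIENT OF THE
TORSION OF `J₀(M)(ℚ̄)` GIVES RESIDUAL MODULARITY OF LEVEL `M`.

`s44c_level_of_red_pow` / **`s44c_level_of_red`** : `red : J₀(M)(ℚ̄) →+ V` additive, compatible on
TORSION points with operators `t ℓ` on `V` for the good primes; `δ ∈ V`, `δ ≠ 0`, `p • δ = 0`,
`t ℓ δ = a_ℓ(W) • δ`; and `δ = red D` for a TORSION point `D`.  Then `P.ModularRepOfLevel M`.

Proof: the finite group `N = {x ∈ J₀(M)[p^k] : red x ∈ ℤ δ}` is stable under the commuting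
operators `T_ℓ - a_ℓ` and `p`, `red` is nonzero on it and kills their images: the Fitting lemma
`s44c_fin_eigen` gives a nonzero eigen-point of `J₀(M)[p]`, and `s44c_level_of_eigen` applies.
Prefix `s44c_`.
-/
import Mathlib
import Fermat.Agent.S44.Old0.Char2
import Fermat.Agent.S44.Old0.Fin
import Fermat.Agent.S44.Old0.Main

set_option autoImplicit false
set_option linter.unusedSectionVars false
set_option linter.style.haveILetI false
set_option synthInstance.maxHeartbeats 400000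
set_option maxHeartbeats 1000000

noncomputable section

open CongruenceSubgroup ModularCurve
open WeierstrassCurve
open Fermat.Agent.JT3

namespace Fermat.Agent.S44

/-- **(CHAR-T)**, `p`-power torsion form -/
theorem s44c_level_of_red_pow (P : FreyPackage) (M : ℕ) [NeZero M] (W : WeierstrassCurve ℤ)
    (hW : W.IsIntegralModelOf P.freyCurve) {V : Type*} [AddCommGroup V]
    (red : JZero M →+ V) (t : Nat.Primes → V →+ V)
    (hred : ∀ ℓ : Nat.Primes, W.IsGoodPrimeFor ℓ → ¬ (ℓ : ℕ) ∣ M → (ℓ : ℕ) ≠ P.p →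
      ∀ z : JZero M, (∃ n : ℕ, n ≠ 0 ∧ n • z = 0) →
        red (heckeOperatorBar M ℓ z) = t ℓ (red z))
    (δ : V) (hδ0 : δ ≠ 0) (hpδ : P.p • δ = 0)
    (hδ : ∀ ℓ : Nat.Primes, W.IsGoodPrimeFor ℓ → ¬ (ℓ : ℕ) ∣ M → (ℓ : ℕ) ≠ P.p →
      t ℓ δ = (W.apOfModel ℓ) • δ)
    (D : JZero M) (k : ℕ) (hkD : P.p ^ k • D = 0) (hD : red D = δ) :
    P.ModularRepOfLevel M := by
  classical
  haveI : Fact P.p.Prime := ⟨P.pp⟩
  set p := P.p with hp
  have hpk0 : p ^ k ≠ 0 := pow_ne_zero k P.pp.ne_zero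
  -- the index set of good primes
  let Λ : Type := {ℓ : Nat.Primes // W.IsGoodPrimeFor ℓ ∧ ¬ (ℓ : ℕ) ∣ M ∧ (ℓ : ℕ) ≠ p}
  -- the finite group `N`
  let N : AddSubgroup (JZero M) :=
    { carrier := {x | p ^ k • x = 0 ∧ ∃ c : ℤ, red x = c • δ}
      zero_mem' := ⟨smul_zero _, 0, by rw [map_zero, zero_smul]⟩
      add_mem' := by
        rintro a b ⟨ha, ca, hca⟩ ⟨hb, cb, hcb⟩
        exact ⟨by rw [nsmul_add, ha, hb, add_zero], ca + cb, by rw [map_add, hca, hcb, add_smul]⟩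
      neg_mem' := by
        rintro a ⟨ha, ca, hca⟩
        exact ⟨by rw [neg_nsmul, ha, neg_zero], -ca, by rw [map_neg, hca, neg_smul]⟩ }
  have hNtor : ∀ x : N, p ^ k • (x : JZero M) = 0 := fun x => x.2.1
  haveI : Finite N := by
    haveI := tj_finite M p k
    exact Finite.of_injective (fun x : N => (⟨x.1, x.2.1⟩ : {x : JZero M // p ^ k • x = 0}))
      (fun a b h => by
        simp only [Subtype.mk.injEq] at h
        exact Subtype.ext h)
  have htors : ∀ x : N, ∃ n : ℕ, n ≠ 0 ∧ n • (x : JZero M) = 0 := fun x => ⟨p ^ k, hpk0, hNtor x⟩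
  -- the operators on `J₀(M)`
  let U : Option Λ → (JZero M →+ JZero M) := fun i =>
    match i with
    | none => nsmulAddMonoidHom p
    | some ℓ => (heckeOperatorBar M ℓ.1).toAddMonoidHom - zsmulAddGroupHom (W.apOfModel ℓ.1)
  have hU_none : ∀ x : JZero M, U none x = p • x := fun x => rfl
  have hU_some : ∀ (ℓ : Λ) (x : JZero M),
      U (some ℓ) x = heckeOperatorBar M ℓ.1 x - (W.apOfModel ℓ.1) • x := fun ℓ x => rfl
  -- `red ∘ U i = 0` on `N`
  have hredU : ∀ (i : Option Λ) (x : N), red (U i x) = 0 := by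
    rintro (_ | ℓ) x
    · obtain ⟨c, hc⟩ := x.2.2
      rw [hU_none, map_nsmul, hc, smul_comm, hpδ, smul_zero]
    · obtain ⟨c, hc⟩ := x.2.2
      rw [hU_some, map_sub, map_zsmul, hred ℓ.1 ℓ.2.1 ℓ.2.2.1 ℓ.2.2.2 x (htors x), hc,
        map_zsmul, hδ ℓ.1 ℓ.2.1 ℓ.2.2.1 ℓ.2.2.2, smul_comm, sub_self]
  -- `N` is stable
  have hUN : ∀ (i : Option Λ) (x : N), U i x ∈ N := by
    intro i x
    refine ⟨by rw [← map_nsmul, hNtor x, map_zero], 0, ?_⟩
    rw [hredU i x, zero_smul]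
  let u : Option Λ → (N →+ N) := fun i => ((U i).comp N.subtype).codRestrict N (hUN i)
  have hu : ∀ (i : Option Λ) (x : N), ((u i x : N) : JZero M) = U i x := fun i x => rfl
  -- commutation
  have hcommU : ∀ (i j : Option Λ) (x : JZero M), p ^ k • x = 0 → U i (U j x) = U j (U i x) := by
    rintro (_ | ℓ) (_ | ℓ') x hx
    · rfl
    · rw [hU_none, hU_none, map_nsmul]
    · rw [hU_none, hU_none, map_nsmul]
    · rw [hU_some, hU_some, hU_some, hU_some, map_sub, map_sub, map_zsmul, map_zsmul,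
        s44c_hecke_comm_tors M p k x hx ℓ.1 ℓ'.1 ℓ.2.2.1 ℓ'.2.2.1]
      module
  have hcomm : ∀ (i j : Option Λ) (x : N), u i (u j x) = u j (u i x) := by
    intro i j x
    apply Subtype.ext
    rw [hu, hu, hu, hu]
    exact hcommU i j x (hNtor x)
  -- the functional
  let π : N →+ V := red.comp N.subtype
  have hπ : π ≠ 0 := by
    intro h
    apply hδ0
    have hDN : D ∈ N := ⟨hkD, 1, by rw [hD, one_smul]⟩
    have := DFunLike.congr_fun h ⟨D, hDN⟩
    rw [← hD]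
    exact this
  have hπu : ∀ (i : Option Λ) (x : N), π (u i x) = 0 := fun i x => hredU i x
  obtain ⟨y, hy0, hy⟩ := s44c_fin_eigen u π hcomm hπ hπu
  -- the eigen-point
  have hy0' : (y : JZero M) ≠ 0 := fun h => hy0 (Subtype.ext h)
  have hpy : p • (y : JZero M) = 0 := by
    have h1 := hu none y
    rw [hy none, hU_none, AddSubgroup.coe_zero] at h1
    exact h1.symm
  refine s44c_level_of_eigen P M W hW (y : JZero M) hy0' hpy ?_
  intro ℓ hgood hℓM hℓp
  have h1 := hu (some ⟨ℓ, hgood, hℓM, hℓp⟩) y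
  rw [hy (some ⟨ℓ, hgood, hℓM, hℓp⟩), hU_some, AddSubgroup.coe_zero] at h1
  exact sub_eq_zero.mp h1.symm

/-- **(CHAR-T)**: an eigen-class `δ = red D`, `D` a torsion point, in a Hecke-equivariant quotient
of `J₀(M)(ℚ̄)_tors` gives residual modularity of level `M`. -/
theorem s44c_level_of_red (P : FreyPackage) (M : ℕ) [NeZero M] (W : WeierstrassCurve ℤ)
    (hW : W.IsIntegralModelOf P.freyCurve) {V : Type*} [AddCommGroup V]
    (red : JZero M →+ V) (t : Nat.Primes → V →+ V)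
    (hred : ∀ ℓ : Nat.Primes, W.IsGoodPrimeFor ℓ → ¬ (ℓ : ℕ) ∣ M → (ℓ : ℕ) ≠ P.p →
      ∀ z : JZero M, (∃ n : ℕ, n ≠ 0 ∧ n • z = 0) →
        red (heckeOperatorBar M ℓ z) = t ℓ (red z))
    (δ : V) (hδ0 : δ ≠ 0) (hpδ : P.p • δ = 0)
    (hδ : ∀ ℓ : Nat.Primes, W.IsGoodPrimeFor ℓ → ¬ (ℓ : ℕ) ∣ M → (ℓ : ℕ) ≠ P.p →
      t ℓ δ = (W.apOfModel ℓ) • δ)
    (D : JZero M) (n : ℕ) (hn : n ≠ 0) (hnD : n • D = 0) (hD : red D = δ) :
    P.ModularRepOfLevel M := by
  obtain ⟨k, m, hpm, rfl⟩ := Nat.exists_eq_pow_mul_and_not_dvd hn P.p P.pp.ne_one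
  -- `u * m ≡ 1 mod p`
  have hcop : Nat.Coprime m P.p := (Nat.Coprime.symm ((Nat.Prime.coprime_iff_not_dvd P.pp).mpr hpm))
  obtain ⟨u, -, hu⟩ := Nat.exists_mul_mod_eq_one_of_coprime hcop P.pp.one_lt
  have hum : m * u = 1 + P.p * (m * u / P.p) := by
    have := Nat.mod_add_div (m * u) P.p
    rw [hu] at this
    exact this.symm
  refine s44c_level_of_red_pow P M W hW red t hred δ hδ0 hpδ hδ ((m * u) • D) k ?_ ?_
  · rw [← mul_smul, ← mul_assoc, mul_smul, smul_comm, hnD, smul_zero]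
  · rw [map_nsmul, hD, hum, add_smul, one_smul, mul_comm, mul_smul, hpδ, smul_zero, add_zero]

end Fermat.Agent.S44
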